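import Mathlib

/-!
# Elementary counting lemmas for the squarefree sieve

Sums of `1 / p ^ 2` over odd `p ≥ 5`, residue classes in intervals, and `π(n) = o(n)`.
-/

set_option autoImplicit false

namespace Fermat.Agent.Squarefree

open Finset

/-- A finite set of odd numbers `≥ 5` has reciprocal square sum at most `1 / 8`. -/
theorem sum_inv_sq_le (T : Finset ℕ) (h5 : ∀ p ∈ T, 5 ≤ p) (hodd : ∀ p ∈ T, Odd p) :
    ∑ p ∈ T, (1 : ℝ) / (p : ℝ) ^ 2 ≤ 1 / 8 := by
  set f : ℕ → ℝ := fun k => 1 / (4 * (k : ℝ)) with hf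
  have hk : ∀ p ∈ T, 2 ≤ p / 2 ∧ p = 2 * (p / 2) + 1 := by
    intro p hp
    obtain ⟨m, rfl⟩ := hodd p hp
    have := h5 _ hp
    omega
  set K := T.sup id + 2 with hK
  have hmaps : T.image (· / 2) ⊆ Finset.Ico 2 K := by
    intro k hk'
    obtain ⟨p, hp, rfl⟩ := Finset.mem_image.mp hk'
    have hle : p ≤ T.sup id := Finset.le_sup (f := id) hp
    exact Finset.mem_Ico.mpr ⟨(hk p hp).1, by omega⟩
  have hinj : Set.InjOn (· / 2) (T : Set ℕ) := by
    intro p hp q hq h
    simp only at h
    rw [(hk p hp).2, (hk q hq).2, h]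
  have hnn : ∀ k ∈ Finset.Ico 2 K, 0 ≤ f k - f (k + 1) := by
    intro k hk'
    have h2 : (2 : ℝ) ≤ k := by exact_mod_cast (Finset.mem_Ico.mp hk').1
    rw [sub_nonneg, hf]
    push_cast
    exact one_div_le_one_div_of_le (by positivity) (by linarith)
  calc ∑ p ∈ T, (1 : ℝ) / (p : ℝ) ^ 2
      ≤ ∑ p ∈ T, (f (p / 2) - f (p / 2 + 1)) := by
        refine Finset.sum_le_sum fun p hp => ?_
        obtain ⟨h2, hpe⟩ := hk p hp
        generalize p / 2 = k at h2 hpe ⊢
        subst hpe
        have h2' : (2 : ℝ) ≤ k := by exact_mod_cast h2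
        rw [hf]
        push_cast
        rw [div_sub_div _ _ (by positivity) (by positivity), div_le_div_iff₀ (by positivity)
          (by positivity)]
        nlinarith
    _ = ∑ k ∈ T.image (· / 2), (f k - f (k + 1)) :=
        (Finset.sum_image (f := fun k => f k - f (k + 1)) hinj).symm
    _ ≤ ∑ k ∈ Finset.Ico 2 K, (f k - f (k + 1)) :=
        Finset.sum_le_sum_of_subset_of_nonneg hmaps fun k hk _ => hnn k hk
    _ = f 2 - f K := by
        have h := Finset.sum_Ico_sub f (show 2 ≤ K by omega)
        rw [← neg_inj, ← Finset.sum_neg_distrib]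
        simp only [neg_sub]
        exact h
    _ ≤ 1 / 8 := by
        have : (0 : ℝ) ≤ f K := by positivity
        have h2 : f 2 = 1 / 8 := by rw [hf]; norm_num
        linarith

/-- A residue class modulo `m` in an interval of length `N`. -/
theorem card_class_le (N m : ℕ) (u L : ℤ) (_hm : 0 < m) (hL : IsCoprime (m : ℤ) L) :
    ((Finset.range N).filter fun i : ℕ => (m : ℤ) ∣ u + L * i).card ≤ N / m + 1 := by
  rw [← Finset.card_range (N / m + 1)]
  refine Finset.card_le_card_of_injOn (fun i => i / m) ?_ ?_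
  · intro i hi
    simp only [Finset.mem_coe, Finset.mem_filter, Finset.mem_range] at hi ⊢
    have := Nat.div_le_div_right (c := m) hi.1.le
    omega
  · intro i hi j hj hij
    simp only [Finset.mem_coe, Finset.mem_filter, Finset.mem_range] at hi hj
    have hd : (m : ℤ) ∣ L * ((i : ℤ) - j) := by
      have := dvd_sub hi.2 hj.2
      rwa [show u + L * i - (u + L * j) = L * ((i : ℤ) - j) by ring] at this
    have hmod : i % m = j % m := by
      exact_mod_cast Int.emod_eq_emod_iff_emod_sub_eq_zero.mpr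
        (Int.emod_eq_zero_of_dvd (hL.dvd_of_dvd_mul_left hd))
    simp only at hij
    have h1 := Nat.div_add_mod i m
    have h2 := Nat.div_add_mod j m
    rw [hij, hmod] at h1
    omega

/-- `π(n) = o(n)`. -/
theorem card_prime_le_eventually {δ : ℝ} (hδ : 0 < δ) :
    ∀ᶠ n : ℕ in Filter.atTop,
      (((Finset.range (n + 1)).filter Nat.Prime).card : ℝ) ≤ δ * n := by
  have h1 := (tendsto_natCast_atTop_atTop (R := ℝ)).eventually
    (Chebyshev.eventually_primeCounting_le (ε := 1) one_pos)
  have h2 := (Real.tendsto_log_atTop.comp (tendsto_natCast_atTop_atTop (R := ℝ))).eventually_ge_atTop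
    ((Real.log 4 + 1) / δ + 1)
  filter_upwards [h1, h2] with n hn hlog
  have hcard : ((Finset.range (n + 1)).filter Nat.Prime).card = Nat.primeCounting n := by
    rw [Nat.primeCounting, Nat.primeCounting', Nat.count_eq_card_filter_range]
  rw [Nat.floor_natCast] at hn
  simp only [Function.comp_apply] at hlog
  rw [hcard]
  have hc : 0 < Real.log 4 + 1 := by
    have := Real.log_pos (show (1 : ℝ) < 4 by norm_num)
    linarith
  have hq : 0 < (Real.log 4 + 1) / δ := by positivity
  have hlpos : 0 < Real.log (n : ℝ) := by linarith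
  refine hn.trans ?_
  rw [div_le_iff₀ hlpos]
  have h3 : Real.log 4 + 1 ≤ δ * Real.log (n : ℝ) := by
    have := (div_le_iff₀ hδ).mp (by linarith : (Real.log 4 + 1) / δ ≤ Real.log (n : ℝ))
    linarith
  calc (Real.log 4 + 1) * n ≤ δ * Real.log (n : ℝ) * n := by gcongr
    _ = δ * n * Real.log (n : ℝ) := by ring

end Fermat.Agent.Squarefree
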