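import Fermat.Agent.Squarefree.Sieve

/-!
# Squarefree values of binary quartic forms

`exists_squarefree_value`: in any primitive congruence class and any open cone, a binary quartic
form takes a value at a coprime pair which is squarefree outside the bad primes.
-/

set_option autoImplicit false

namespace Fermat.Agent.Squarefree

open Finset

/-- Squarefree values of a binary quartic form outside `S`, in a class and a cone. -/
theorem exists_squarefree_value (a b c d e : ℤ) (S : Finset ℕ) (h2 : 2 ∈ S) (h3 : 3 ∈ S)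
    (hlead : ∀ p : ℕ, p.Prime → (p : ℤ) ∣ a → p ∈ S)
    (hdisc : ∀ p : ℕ, p.Prime → (p : ℤ) ∣ qDisc a b c d e → p ∈ S)
    (M : ℕ) (hM : 0 < M) (hMS : ∀ p : ℕ, p.Prime → p ∣ M → p ∈ S)
    (r₀ s₀ : ℤ) (hprim : ∀ p : ℕ, p.Prime → p ∣ M → ¬ ((p : ℤ) ∣ r₀ ∧ (p : ℤ) ∣ s₀))
    (α β : ℝ) (hαβ : α < β) :
    ∃ r s : ℤ, IsCoprime r s ∧ (M : ℤ) ∣ r - r₀ ∧ (M : ℤ) ∣ s - s₀ ∧ 0 < s ∧
      α < (r : ℝ) / s ∧ (r : ℝ) / s < β ∧ qForm a b c d e r s ≠ 0 ∧
      ∀ p : ℕ, p.Prime → p ∉ S → ¬ (p : ℤ) ^ 2 ∣ qForm a b c d e r s := by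
  classical
  set P : ℕ := ∏ p ∈ S.filter (fun p => p.Prime ∧ ¬ p ∣ M), p with hP
  have hPpos : 0 < P := Finset.prod_pos fun p hp => (Finset.mem_filter.mp hp).2.1.pos
  have hPdiv : ∀ p : ℕ, p.Prime → p ∣ P → p ∈ S ∧ ¬ p ∣ M := by
    intro p hp hd
    obtain ⟨q, hq, hpq⟩ := (hp.prime.dvd_finsetProd_iff _).mp hd
    obtain ⟨hqS, hqp, hqM⟩ := Finset.mem_filter.mp hq
    obtain rfl := (Nat.prime_dvd_prime_iff_eq hp hqp).mp hpq
    exact ⟨hqS, hqM⟩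
  have hcop : Nat.Coprime M P :=
    Nat.coprime_of_dvd fun p hp hpM hpP => (hPdiv p hp hpP).2 hpM
  obtain ⟨x, y, hxy⟩ := Nat.isCoprime_iff_coprime.mpr hcop
  set u : ℤ := r₀ * (y * P) + x * M with hu
  have huM : (M : ℤ) ∣ u - r₀ := ⟨x - r₀ * x, by rw [hu]; linear_combination r₀ * hxy⟩
  have huP : (P : ℤ) ∣ u - 1 := ⟨r₀ * y - y, by rw [hu]; linear_combination hxy⟩
  have hLS : ∀ p : ℕ, p.Prime → p ∣ M * P → p ∈ S := fun p hp h =>
    (hp.dvd_mul.mp h).elim (hMS p hp) fun h => (hPdiv p hp h).1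
  have hSL : ∀ p : ℕ, p.Prime → p ∈ S → p ∣ M * P := by
    intro p hp hpS
    by_cases h : p ∣ M
    · exact h.mul_right _
    · exact (Finset.dvd_prod_of_mem (fun i => i) (Finset.mem_filter.mpr ⟨hpS, hp, h⟩)).mul_left _
  have hprim' : ∀ p : ℕ, p.Prime → p ∣ M * P → ¬ ((p : ℤ) ∣ u ∧ (p : ℤ) ∣ s₀) := by
    intro p hp hd h
    rcases hp.dvd_mul.mp hd with hd | hd
    · exact hprim p hp hd ⟨(dvd_iff_dvd_of_dvd_sub
        ((Int.natCast_dvd_natCast.mpr hd).trans huM)).mp h.1, h.2⟩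
    · exact (Nat.prime_iff_prime_int.mp hp).not_dvd_one ((dvd_iff_dvd_of_dvd_sub
        ((Int.natCast_dvd_natCast.mpr hd).trans huP)).mp h.1)
  -- a rational slope, scaled
  obtain ⟨q, hq1, hq2⟩ := exists_rat_btwn hαβ
  have hden : (0 : ℝ) < (q.den : ℝ) := by exact_mod_cast q.pos
  rw [Rat.cast_def, lt_div_iff₀ hden] at hq1
  rw [Rat.cast_def, div_lt_iff₀ hden] at hq2
  obtain ⟨k, hk⟩ := exists_nat_gt
    (max ((|α| + 1) / ((q.num : ℝ) - α * q.den)) ((|β| + 2) / (β * q.den - q.num)))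
  have hk1 : |α| + 1 ≤ (k : ℝ) * ((q.num : ℝ) - α * q.den) :=
    ((div_lt_iff₀ (sub_pos.mpr hq1)).mp (lt_of_le_of_lt (le_max_left _ _) hk)).le
  have hk2 : |β| + 2 ≤ (k : ℝ) * (β * q.den - q.num) :=
    ((div_lt_iff₀ (sub_pos.mpr hq2)).mp (lt_of_le_of_lt (le_max_right _ _) hk)).le
  have hk0 : 1 ≤ k := by
    by_contra h
    obtain rfl : k = 0 := by omega
    have := abs_nonneg α
    simp at hk1
    linarith
  obtain ⟨N₀, hgood⟩ := exists_good_point a b c d e S h2 h3 hlead hdisc (M * P)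
    (Nat.mul_pos hM hPpos) hLS hSL u s₀ hprim' (k * q.num) ((k : ℤ) * q.den)
    (by have := Nat.mul_pos hk0 q.pos; exact_mod_cast this)
  obtain ⟨N₁, hN₁⟩ := exists_nat_gt
    (|(u : ℝ) - α * s₀| + |β * s₀ - (u : ℝ)| + |(s₀ : ℝ)| + 1)
  obtain ⟨i, hi, j, hj, hc, hne, hsq⟩ := hgood (max N₀ N₁) (le_max_left _ _)
  have hN : |(u : ℝ) - α * s₀| + |β * s₀ - (u : ℝ)| + |(s₀ : ℝ)| + 1 < (max N₀ N₁ : ℕ) :=
    hN₁.trans_le (Nat.cast_le.mpr (le_max_right _ _))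
  generalize max N₀ N₁ = N at hi hj hc hne hsq hN
  set r : ℤ := u + ((M * P : ℕ) : ℤ) * (k * q.num * N + i) with hr
  set s : ℤ := s₀ + ((M * P : ℕ) : ℤ) * (k * q.den * N + j) with hs
  have hLR : (1 : ℝ) ≤ ((M * P : ℕ) : ℝ) := by
    exact_mod_cast Nat.mul_pos hM hPpos
  have hiR : (i : ℝ) ≤ N := by exact_mod_cast hi.le
  have hjR : (j : ℝ) ≤ N := by exact_mod_cast hj.le
  have hi0 : (0 : ℝ) ≤ i := by positivity
  have hj0 : (0 : ℝ) ≤ j := by positivity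
  have hN0 : (0 : ℝ) ≤ N := by positivity
  have haj : α * j ≤ |α| * N := (mul_le_mul_of_nonneg_right (le_abs_self α) hj0).trans
    (mul_le_mul_of_nonneg_left hjR (abs_nonneg α))
  have hbj : -(|β| * N) ≤ β * j := by
    have := (mul_le_mul_of_nonneg_right (neg_le_abs β) hj0).trans
      (mul_le_mul_of_nonneg_left hjR (abs_nonneg β))
    linarith
  have hk1N := mul_le_mul_of_nonneg_right hk1 hN0
  have hk2N := mul_le_mul_of_nonneg_right hk2 hN0
  have hrR : (r : ℝ) = u + ((M * P : ℕ) : ℝ) * ((k : ℝ) * q.num * N + i) := by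
    rw [hr]; push_cast; ring
  have hsR : (s : ℝ) = s₀ + ((M * P : ℕ) : ℝ) * ((k : ℝ) * q.den * N + j) := by
    rw [hs]; push_cast; ring
  generalize ((M * P : ℕ) : ℝ) = L at hLR hrR hsR
  have habs1 := neg_abs_le ((u : ℝ) - α * s₀)
  have habs2 := neg_abs_le (β * s₀ - (u : ℝ))
  have habs3 := neg_abs_le (s₀ : ℝ)
  have h0u := abs_nonneg ((u : ℝ) - α * s₀)
  have h0b := abs_nonneg (β * s₀ - (u : ℝ))
  have h0s := abs_nonneg (s₀ : ℝ)
  have hscale : ∀ t : ℝ, (N : ℝ) ≤ t → (N : ℝ) ≤ L * t := fun t ht =>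
    ht.trans (le_mul_of_one_le_left (hN0.trans ht) hLR)
  have hspos : (0 : ℝ) < s := by
    have h1 : (N : ℝ) ≤ (k : ℝ) * q.den * N + j := by
      have : (1 : ℝ) ≤ (k : ℝ) * q.den := by exact_mod_cast Nat.mul_pos hk0 q.pos
      have := le_mul_of_one_le_left hN0 this
      linarith
    have := hscale _ h1
    rw [hsR]; linarith
  refine ⟨r, s, hc, ?_, ?_, by exact_mod_cast hspos, ?_, ?_, hne, hsq⟩
  · rw [hr, show u + ((M * P : ℕ) : ℤ) * (k * q.num * N + i) - r₀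
      = (u - r₀) + (M : ℤ) * ((P : ℤ) * (k * q.num * N + i)) by push_cast; ring]
    exact dvd_add huM (dvd_mul_right _ _)
  · exact ⟨(P : ℤ) * (k * q.den * N + j), by rw [hs]; push_cast; ring⟩
  · rw [lt_div_iff₀ hspos, hrR, hsR]
    have h1 : (N : ℝ) ≤ (k : ℝ) * ((q.num : ℝ) - α * q.den) * N + i - α * j := by linarith
    have := hscale _ h1
    linarith
  · rw [div_lt_iff₀ hspos, hrR, hsR]
    have h1 : (N : ℝ) ≤ (k : ℝ) * (β * q.den - q.num) * N - i + β * j := by linarith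
    have := hscale _ h1
    linarith

end Fermat.Agent.Squarefree
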