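import Mathlib

/-!
# Binary quartic forms: discriminant and roots modulo `p ^ 2`

For a prime `p` prime to leading coefficient and discriminant, the pairs `(r, s)`, not both
divisible by `p`, with `p ^ 2 ∣ qForm a b c d e r s` lie on at most four lines modulo `p ^ 2`.
-/

set_option autoImplicit false

namespace Fermat.Agent.Squarefree

open Polynomial

variable {R : Type*} [CommRing R]

/-- The binary quartic form with the given coefficients. -/
def qForm (a b c d e r s : R) : R :=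
  a * r ^ 4 + b * r ^ 3 * s + c * r ^ 2 * s ^ 2 + d * r * s ^ 3 + e * s ^ 4

/-- The discriminant of a quartic. -/
def qDisc (a b c d e : R) : R :=
  256 * a ^ 3 * e ^ 3 - 192 * a ^ 2 * b * d * e ^ 2 - 128 * a ^ 2 * c ^ 2 * e ^ 2
    + 144 * a ^ 2 * c * d ^ 2 * e - 27 * a ^ 2 * d ^ 4 + 144 * a * b ^ 2 * c * e ^ 2
    - 6 * a * b ^ 2 * d ^ 2 * e - 80 * a * b * c ^ 2 * d * e + 18 * a * b * c * d ^ 3
    + 16 * a * c ^ 4 * e - 4 * a * c ^ 3 * d ^ 2 - 27 * b ^ 4 * e ^ 2 + 18 * b ^ 3 * c * d * e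
    - 4 * b ^ 3 * d ^ 3 - 4 * b ^ 2 * c ^ 3 * e + b ^ 2 * c ^ 2 * d ^ 2

theorem qDisc_invariants (a b c d e : R) :
    27 * qDisc a b c d e = 4 * (12 * a * e - 3 * b * d + c ^ 2) ^ 3
      - (72 * a * c * e + 9 * b * c * d - 27 * a * d ^ 2 - 27 * e * b ^ 2 - 2 * c ^ 3) ^ 2 := by
  simp only [qDisc]; ring

/-- A quartic with a double root has vanishing discriminant. -/
theorem qDisc_eq_zero_of_double_root (a b c d e x : R)
    (h0 : qForm a b c d e x 1 = 0)
    (h1 : 4 * a * x ^ 3 + 3 * b * x ^ 2 + 2 * c * x + d = 0) : qDisc a b c d e = 0 := by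
  obtain rfl : d = -(4 * a * x ^ 3 + 3 * b * x ^ 2 + 2 * c * x) := by linear_combination h1
  obtain rfl : e = 3 * a * x ^ 4 + 2 * b * x ^ 3 + c * x ^ 2 := by
    simp only [qForm] at h0; linear_combination h0
  simp only [qDisc]; ring

theorem qForm_taylor (a b c d e x y : R) :
    qForm a b c d e y 1 - qForm a b c d e x 1
      = (y - x) * (4 * a * x ^ 3 + 3 * b * x ^ 2 + 2 * c * x + d)
        + (y - x) ^ 2 * (a * (3 * x ^ 2 + 2 * x * y + y ^ 2) + b * (2 * x + y) + c) := by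
  simp only [qForm]; ring

theorem dvd_sub_qForm_of_dvd {m : R} (a b c d e ρ r s : R) (h : m ∣ r - ρ * s) :
    m ∣ qForm a b c d e r s - s ^ 4 * qForm a b c d e ρ 1 := by
  refine dvd_trans h (Dvd.intro (a * (r + ρ * s) * (r ^ 2 + (ρ * s) ^ 2)
    + b * s * (r ^ 2 + r * (ρ * s) + (ρ * s) ^ 2) + c * s ^ 2 * (r + ρ * s) + d * s ^ 3) ?_)
  simp only [qForm]; ring

/-- The slopes modulo `p ^ 2`. -/
theorem exists_slopes (a b c d e : ℤ) {p : ℕ} (hp : p.Prime) (ha : ¬ (p : ℤ) ∣ a)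
    (hD : ¬ (p : ℤ) ∣ qDisc a b c d e) :
    ∃ R : Finset ℤ, R.card ≤ 4 ∧ ∀ r s : ℤ, ¬ ((p : ℤ) ∣ r ∧ (p : ℤ) ∣ s) →
      (p : ℤ) ^ 2 ∣ qForm a b c d e r s → ∃ ρ ∈ R, (p : ℤ) ^ 2 ∣ r - ρ * s := by
  have := Fact.mk hp
  classical
  have hp2 : (0 : ℤ) < (p : ℤ) ^ 2 := by have := hp.pos; positivity
  refine ⟨(Finset.Ico (0 : ℤ) ((p : ℤ) ^ 2)).filter
    fun ρ => (p : ℤ) ^ 2 ∣ qForm a b c d e ρ 1, ?_, ?_⟩
  · set P : (ZMod p)[X] := C (a : ZMod p) * X ^ 4 + C (b : ZMod p) * X ^ 3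
      + C (c : ZMod p) * X ^ 2 + C (d : ZMod p) * X + C (e : ZMod p) with hP
    have hdeg : P.natDegree ≤ 4 := by rw [hP]; compute_degree
    have hne : P ≠ 0 := by
      intro h
      have h4 : P.coeff 4 = (a : ZMod p) := by
        simp only [hP, coeff_add, coeff_C_mul, coeff_X_pow, coeff_X, coeff_C]
        norm_num
      rw [h, coeff_zero, eq_comm, ZMod.intCast_zmod_eq_zero_iff_dvd] at h4
      exact ha h4
    refine (Finset.card_le_card_of_injOn (t := P.roots.toFinset) (fun ρ : ℤ => (ρ : ZMod p))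
      ?_ ?_).trans ((Multiset.toFinset_card_le _).trans ((card_roots' P).trans hdeg))
    · intro ρ hρ
      simp only [Finset.mem_coe, Finset.mem_filter] at hρ
      simp only [Finset.mem_coe, Multiset.mem_toFinset, mem_roots', IsRoot.def]
      refine ⟨hne, ?_⟩
      have h0 : ((qForm a b c d e ρ 1 : ℤ) : ZMod p) = 0 :=
        (ZMod.intCast_zmod_eq_zero_iff_dvd _ p).mpr ((dvd_pow_self _ two_ne_zero).trans hρ.2)
      rw [← h0]
      simp [hP, qForm]
    · intro x hx y hy hxy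
      simp only [Finset.mem_coe, Finset.mem_filter, Finset.mem_Ico] at hx hy
      have hd : (p : ℤ) ∣ y - x := (ZMod.intCast_eq_intCast_iff_dvd_sub x y p).mp hxy
      set g' := 4 * a * x ^ 3 + 3 * b * x ^ 2 + 2 * c * x + d with hg'
      have hprod : (p : ℤ) ^ 2 ∣ (y - x) * g' := by
        rw [show (y - x) * g' = qForm a b c d e y 1 - qForm a b c d e x 1
          - (y - x) ^ 2 * (a * (3 * x ^ 2 + 2 * x * y + y ^ 2) + b * (2 * x + y) + c) by
            rw [qForm_taylor, hg']; ring]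
        exact dvd_sub (dvd_sub hy.2 hx.2) (Dvd.dvd.mul_right (pow_dvd_pow_of_dvd hd 2) _)
      have hg : ¬ (p : ℤ) ∣ g' := by
        intro hg
        apply hD
        rw [← ZMod.intCast_zmod_eq_zero_iff_dvd] at hg ⊢
        have h0 : ((qForm a b c d e x 1 : ℤ) : ZMod p) = 0 :=
          (ZMod.intCast_zmod_eq_zero_iff_dvd _ p).mpr ((dvd_pow_self _ two_ne_zero).trans hx.2)
        simp only [hg'] at hg
        push_cast [qForm] at h0 hg
        have := qDisc_eq_zero_of_double_root (a : ZMod p) b c d e x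
          (by simpa [qForm] using h0) (by simpa using hg)
        simpa [qDisc] using this
      have hcop : IsCoprime ((p : ℤ) ^ 2) g' :=
        ((Nat.prime_iff_prime_int.mp hp).coprime_iff_not_dvd.mpr hg).pow_left
      have h := hcop.dvd_of_dvd_mul_right hprod
      have := Int.eq_zero_of_abs_lt_dvd h (by rw [abs_lt]; omega)
      omega
  · intro r s hrs hF
    have hs : ¬ (p : ℤ) ∣ s := by
      intro hs
      refine hrs ⟨?_, hs⟩
      have h : (p : ℤ) ∣ qForm a b c d e r s := (dvd_pow_self _ two_ne_zero).trans hF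
      have h' : (p : ℤ) ∣ a * r ^ 4 := by
        rw [show a * r ^ 4 = qForm a b c d e r s
          - s * (b * r ^ 3 + c * r ^ 2 * s + d * r * s ^ 2 + e * s ^ 3) by simp only [qForm]; ring]
        exact dvd_sub h (Dvd.dvd.mul_right hs _)
      have hp' := Nat.prime_iff_prime_int.mp hp
      exact hp'.dvd_of_dvd_pow ((hp'.dvd_or_dvd h').resolve_left ha)
    have hcop : IsCoprime ((p : ℤ) ^ 2) s :=
      ((Nat.prime_iff_prime_int.mp hp).coprime_iff_not_dvd.mpr hs).pow_left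
    obtain ⟨u, v, huv⟩ := hcop
    have hd : (p : ℤ) ^ 2 ∣ r - (r * v % (p : ℤ) ^ 2) * s := by
      refine ⟨r * u + r * v / (p : ℤ) ^ 2 * s, ?_⟩
      have h1 := Int.emod_add_mul_ediv (r * v) ((p : ℤ) ^ 2)
      linear_combination (-r) * huv - s * h1
    refine ⟨r * v % (p : ℤ) ^ 2, Finset.mem_filter.mpr
      ⟨Finset.mem_Ico.mpr ⟨Int.emod_nonneg _ hp2.ne', Int.emod_lt_of_pos _ hp2⟩, ?_⟩, hd⟩
    have h2 : (p : ℤ) ^ 2 ∣ s ^ 4 * qForm a b c d e (r * v % (p : ℤ) ^ 2) 1 := by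
      have := dvd_sub hF (dvd_sub_qForm_of_dvd a b c d e _ r s hd)
      simpa using this
    exact (IsCoprime.pow_right ⟨u, v, huv⟩).dvd_of_dvd_mul_left h2

end Fermat.Agent.Squarefree
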