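import Fermat.Agent.Squarefree.Count
import Fermat.Agent.Squarefree.Roots

/-!
# The sieve: a box in a residue class contains a coprime point with squarefree form value

Bad primes in a translated box are counted: lines modulo `p ^ 2` for small `p`, and at most one
coprime point per line when `p ^ 2` exceeds all determinants.
-/

set_option autoImplicit false

namespace Fermat.Agent.Squarefree

open Finset

/-- Two coprime points with positive second coordinate and vanishing determinant agree. -/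
theorem eq_of_det_eq_zero {r s r' s' : ℤ} (h : IsCoprime r s) (h' : IsCoprime r' s')
    (hs : 0 < s) (hs' : 0 < s') (hdet : r * s' = r' * s) : r = r' ∧ s = s' := by
  have h1 : s ∣ s' := h.symm.dvd_of_dvd_mul_left (Dvd.intro_left r' hdet.symm)
  have h2 : s' ∣ s := h'.symm.dvd_of_dvd_mul_left (Dvd.intro_left r hdet)
  obtain rfl := Int.dvd_antisymm hs.le hs'.le h1 h2
  exact ⟨mul_right_cancel₀ hs.ne' hdet, rfl⟩

/-- At most one coprime point on a line modulo `m`, when `m` exceeds all determinants. -/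
theorem card_le_one_of_line {ι : Type*} (B : Finset ι) (r s : ι → ℤ) {R m ρ : ℤ}
    (hinj : ∀ x ∈ B, ∀ y ∈ B, r x = r y → s x = s y → x = y)
    (hcop : ∀ x ∈ B, IsCoprime (r x) (s x)) (hs : ∀ x ∈ B, 0 < s x)
    (hr : ∀ x ∈ B, |r x| ≤ R) (hsR : ∀ x ∈ B, |s x| ≤ R) (hm : 2 * R ^ 2 < m)
    (hline : ∀ x ∈ B, m ∣ r x - ρ * s x) : B.card ≤ 1 := by
  refine Finset.card_le_one.mpr fun x hx y hy => ?_
  have hR : 0 ≤ R := (abs_nonneg _).trans (hr x hx)
  have hd : m ∣ r x * s y - r y * s x := by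
    rw [show r x * s y - r y * s x = (r x - ρ * s x) * s y - (r y - ρ * s y) * s x by ring]
    exact dvd_sub (Dvd.dvd.mul_right (hline x hx) _) (Dvd.dvd.mul_right (hline y hy) _)
  have h0 : r x * s y - r y * s x = 0 := by
    refine Int.eq_zero_of_abs_lt_dvd hd (lt_of_le_of_lt ?_ hm)
    refine (abs_sub _ _).trans ?_
    rw [abs_mul, abs_mul]
    have h1 : |r x| * |s y| ≤ R * R := mul_le_mul (hr x hx) (hsR y hy) (abs_nonneg _) hR
    have h2 : |r y| * |s x| ≤ R * R := mul_le_mul (hr y hy) (hsR x hx) (abs_nonneg _) hR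
    linarith
  obtain ⟨h1, h2⟩ := eq_of_det_eq_zero (hcop x hx) (hcop y hy) (hs x hx) (hs y hy)
    (sub_eq_zero.mp h0)
  exact hinj x hx y hy h1 h2

/-- A line modulo `m` meets an `N × N` box in at most `N * (N / m + 1)` points. -/
theorem card_line_le (N m : ℕ) (u w L ρ : ℤ) (hm : 0 < m) (hL : IsCoprime (m : ℤ) L) :
    ((range N ×ˢ range N).filter
      fun x : ℕ × ℕ => (m : ℤ) ∣ u + L * x.1 - ρ * (w + L * x.2)).card ≤ (N / m + 1) * N := by
  refine (Finset.card_le_mul_card_image_of_maps_to (f := Prod.snd) (t := range N)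
    (fun x hx => (Finset.mem_product.mp (Finset.mem_filter.mp hx).1).2) (N / m + 1) ?_).trans ?_
  · intro j _
    refine le_trans ?_ (card_class_le N m (u - ρ * (w + L * j)) L hm hL)
    refine Finset.card_le_card_of_injOn Prod.fst ?_ ?_
    · intro x hx
      simp only [Finset.mem_coe, Finset.mem_filter, Finset.mem_product, Finset.mem_range] at hx ⊢
      obtain ⟨⟨⟨h1, _⟩, h3⟩, rfl⟩ := hx
      refine ⟨h1, ?_⟩
      rwa [show u - ρ * (w + L * x.2) + L * x.1 = u + L * x.1 - ρ * (w + L * x.2) by ring]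
    · intro x hx y hy h
      simp only [Finset.mem_coe, Finset.mem_filter] at hx hy
      exact Prod.ext h (hx.2.trans hy.2.symm)
  · simp

/-- The points of the box with both coordinates divisible by `p`. -/
theorem card_both_le (N p : ℕ) (u w L : ℤ) (hp : 0 < p) (hL : IsCoprime (p : ℤ) L) :
    (((range N ×ˢ range N).filter
      fun x : ℕ × ℕ => (p : ℤ) ∣ u + L * x.1 ∧ (p : ℤ) ∣ w + L * x.2).card : ℝ)
      ≤ 2 * (N : ℝ) ^ 2 / (p : ℝ) ^ 2 + 2 := by
  have h1 := card_class_le N p u L hp hL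
  have h2 := card_class_le N p w L hp hL
  have hsub : ((range N ×ˢ range N).filter
      fun x : ℕ × ℕ => (p : ℤ) ∣ u + L * x.1 ∧ (p : ℤ) ∣ w + L * x.2)
      ⊆ ((range N).filter fun i : ℕ => (p : ℤ) ∣ u + L * i)
        ×ˢ ((range N).filter fun i : ℕ => (p : ℤ) ∣ w + L * i) := by
    intro x hx
    simp only [Finset.mem_filter, Finset.mem_product] at hx ⊢
    exact ⟨⟨hx.1.1, hx.2.1⟩, hx.1.2, hx.2.2⟩
  have h := Finset.card_le_card hsub
  rw [Finset.card_product] at h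
  refine (Nat.cast_le.mpr (h.trans (Nat.mul_le_mul h1 h2))).trans ?_
  have hq : ((N / p : ℕ) : ℝ) ≤ (N : ℝ) / p := Nat.cast_div_le
  push_cast
  have hq0 : (0 : ℝ) ≤ ((N / p : ℕ) : ℝ) := by positivity
  rw [show 2 * (N : ℝ) ^ 2 / (p : ℝ) ^ 2 = 2 * ((N : ℝ) / p) ^ 2 by ring]
  nlinarith [sq_nonneg (((N / p : ℕ) : ℝ) - 1)]

/-- The sieve in a box. -/
theorem exists_good_point (a b c d e : ℤ) (S : Finset ℕ) (h2 : 2 ∈ S) (h3 : 3 ∈ S)
    (hlead : ∀ p : ℕ, p.Prime → (p : ℤ) ∣ a → p ∈ S)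
    (hdisc : ∀ p : ℕ, p.Prime → (p : ℤ) ∣ qDisc a b c d e → p ∈ S)
    (L : ℕ) (hL : 0 < L) (hLS : ∀ p : ℕ, p.Prime → p ∣ L → p ∈ S)
    (hSL : ∀ p : ℕ, p.Prime → p ∈ S → p ∣ L)
    (u w : ℤ) (hprim : ∀ p : ℕ, p.Prime → p ∣ L → ¬ ((p : ℤ) ∣ u ∧ (p : ℤ) ∣ w))
    (A B : ℤ) (hB : 1 ≤ B) :
    ∃ N₀ : ℕ, ∀ N : ℕ, N₀ ≤ N → ∃ i < N, ∃ j < N,
      IsCoprime (u + L * (A * N + i)) (w + L * (B * N + j)) ∧
      qForm a b c d e (u + L * (A * N + i)) (w + L * (B * N + j)) ≠ 0 ∧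
      ∀ p : ℕ, p.Prime → p ∉ S →
        ¬ (p : ℤ) ^ 2 ∣ qForm a b c d e (u + L * (A * N + i)) (w + L * (B * N + j)) := by
  classical
  set R₀ : ℕ := L * (A.natAbs + B.natAbs + 1) + u.natAbs + w.natAbs with hR₀
  have hR₁ : 1 ≤ R₀ := by
    have : 1 ≤ L * (A.natAbs + B.natAbs + 1) := Nat.mul_pos hL (Nat.succ_pos _)
    omega
  set C₀ : ℕ := a.natAbs + b.natAbs + c.natAbs + d.natAbs + e.natAbs + 1 with hC₀
  set C : ℕ := C₀ * R₀ ^ 2 with hC
  obtain ⟨q, hqS, hq⟩ := Nat.exists_infinite_primes (S.sup id + 1)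
  have hqS' : q ∉ S := fun h => by
    have := Finset.le_sup (f := id) h
    simp only [id] at this
    omega
  set δ : ℝ := 1 / (8 * (6 * (C : ℝ) + 8 * R₀ + 1)) with hδ
  have hδ0 : 0 < δ := by rw [hδ]; positivity
  obtain ⟨n₀, hn₀⟩ := Filter.eventually_atTop.mp (card_prime_le_eventually hδ0)
  refine ⟨n₀ + q + w.natAbs + 1, fun N hN => ?_⟩
  have hN1 : 1 ≤ N := by omega
  have hC1 : 1 ≤ C := by
    rw [hC, hC₀]; exact Nat.mul_pos (by omega) (pow_pos (by omega) _)
  have hNN : N ≤ C * N ^ 2 :=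
    (Nat.le_mul_of_pos_left N (Nat.mul_pos hC1 hN1)).trans (by rw [pow_two, mul_assoc])
  set u' : ℤ := u + L * (A * N) with hu'
  set w' : ℤ := w + L * (B * N) with hw'
  set box := range N ×ˢ range N with hbox
  set rr : ℕ × ℕ → ℤ := fun x => u' + L * x.1 with hrr
  set ss : ℕ × ℕ → ℤ := fun x => w' + L * x.2 with hss
  set T := (range (C * N ^ 2 + 1)).filter fun p => Nat.Prime p ∧ p ∉ S with hT
  have hmem : ∀ p ∈ T, p.Prime ∧ p ∉ S ∧ 5 ≤ p ∧ Odd p ∧ IsCoprime (p : ℤ) (L : ℤ) := by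
    intro p hp
    obtain ⟨-, hpp, hpS⟩ := Finset.mem_filter.mp hp
    have h2' : p ≠ 2 := fun h => hpS (h ▸ h2)
    have h3' : p ≠ 3 := fun h => hpS (h ▸ h3)
    refine ⟨hpp, hpS, ?_, hpp.odd_of_ne_two h2', ?_⟩
    · by_contra hlt
      have := hpp.two_le
      interval_cases p <;> first | exact h2' rfl | exact h3' rfl | exact absurd hpp (by norm_num)
    · exact (Nat.prime_iff_prime_int.mp hpp).coprime_iff_not_dvd.mpr
        fun h => hpS (hLS p hpp (Int.natCast_dvd_natCast.mp h))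
  -- bounds on the coordinates
  have hbd : ∀ x ∈ box, |rr x| ≤ (R₀ : ℤ) * N ∧ |ss x| ≤ (R₀ : ℤ) * N ∧ 0 < ss x := by
    intro x hx
    obtain ⟨h1, h2⟩ := Finset.mem_product.mp hx
    have h1' : (x.1 : ℤ) ≤ N := by exact_mod_cast (Finset.mem_range.mp h1).le
    have h2' : (x.2 : ℤ) ≤ N := by exact_mod_cast (Finset.mem_range.mp h2).le
    have hN' : (1 : ℤ) ≤ N := by exact_mod_cast hN1
    have hL' : (1 : ℤ) ≤ L := by exact_mod_cast hL
    have hR : (R₀ : ℤ) = L * (|A| + |B| + 1) + |u| + |w| := by rw [hR₀]; simp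
    have hcoord : ∀ (v D : ℤ) (i : ℤ), 0 ≤ i → i ≤ N →
        |v + L * (D * N) + L * i| ≤ (L * (|D| + 1) + |v|) * N := by
      intro v D i hi hiN
      have e1 : |v + L * (D * N) + L * i| ≤ |v| + |(L : ℤ) * (D * N)| + |(L : ℤ) * i| :=
        (abs_add_le _ _).trans (add_le_add (abs_add_le _ _) le_rfl)
      rw [abs_mul, abs_mul, abs_mul, abs_of_nonneg (by omega : (0 : ℤ) ≤ L),
        abs_of_nonneg (by omega : (0 : ℤ) ≤ N), abs_of_nonneg hi] at e1
      have e2 : |v| ≤ |v| * N := le_mul_of_one_le_right (abs_nonneg v) hN'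
      have e3 : (L : ℤ) * i ≤ L * N := mul_le_mul_of_nonneg_left hiN (by omega)
      linarith
    refine ⟨(hcoord u A x.1 (Int.natCast_nonneg _) h1').trans ?_,
      (hcoord w B x.2 (Int.natCast_nonneg _) h2').trans ?_, ?_⟩
    · rw [hR]; nlinarith [abs_nonneg B, abs_nonneg w, mul_nonneg (by omega : (0:ℤ) ≤ L) (abs_nonneg B)]
    · rw [hR]; nlinarith [abs_nonneg A, abs_nonneg u, mul_nonneg (by omega : (0:ℤ) ≤ L) (abs_nonneg A)]
    · have hwN : |w| + 1 ≤ (N : ℤ) := by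
        rw [Int.abs_eq_natAbs]; exact_mod_cast (show w.natAbs + 1 ≤ N by omega)
      have : (N : ℤ) ≤ L * (B * N) := by
        calc (N : ℤ) = 1 * (1 * N) := by ring
          _ ≤ L * (B * N) := by gcongr
      have : (0 : ℤ) ≤ L * (x.2 : ℤ) := by positivity
      have := neg_abs_le w
      simp only [hss, hw']
      omega
  -- the bad sets
  set bad : ℕ → Finset (ℕ × ℕ) := fun p =>
    box.filter (fun x => (p : ℤ) ∣ rr x ∧ (p : ℤ) ∣ ss x) ∪
    box.filter (fun x => IsCoprime (rr x) (ss x) ∧ (p : ℤ) ^ 2 ∣ qForm a b c d e (rr x) (ss x))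
    with hbad
  have hcard : ∀ p ∈ T, ((bad p).card : ℝ) ≤ 6 * (N : ℝ) ^ 2 / (p : ℝ) ^ 2 + 6
      + if p ≤ 2 * R₀ * N then 4 * (N : ℝ) else 0 := by
    intro p hpT
    obtain ⟨hpp, hpS, -, -, hpL⟩ := hmem p hpT
    obtain ⟨Rs, hRs, hline⟩ := exists_slopes a b c d e hpp
      (fun h => hpS (hlead p hpp h)) (fun h => hpS (hdisc p hpp h))
    refine (Nat.cast_le.mpr (Finset.card_union_le _ _)).trans ?_
    push_cast
    have hboth := card_both_le N p u' w' L hpp.pos hpL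
    set B₂ := box.filter
      (fun x => IsCoprime (rr x) (ss x) ∧ (p : ℤ) ^ 2 ∣ qForm a b c d e (rr x) (ss x)) with hB₂
    set K : ℤ → Finset (ℕ × ℕ) := fun ρ =>
      B₂.filter fun x => (p : ℤ) ^ 2 ∣ rr x - ρ * ss x with hK
    have hcov : B₂ ⊆ Rs.biUnion K := by
      intro x hx
      obtain ⟨hxb, hcop, hF⟩ := Finset.mem_filter.mp hx
      obtain ⟨ρ, hρ, hd⟩ := hline (rr x) (ss x)
        (fun h => (Nat.prime_iff_prime_int.mp hpp).not_isUnit (hcop.isUnit_of_dvd' h.1 h.2)) hF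
      exact Finset.mem_biUnion.mpr ⟨ρ, hρ, Finset.mem_filter.mpr ⟨hx, hd⟩⟩
    set t : ℝ := (N : ℝ) ^ 2 / (p : ℝ) ^ 2 + 1 + if p ≤ 2 * R₀ * N then (N : ℝ) else 0 with ht
    have hKt : ∀ ρ ∈ Rs, ((K ρ).card : ℝ) ≤ t := by
      intro ρ _
      have hnn : 0 ≤ (N : ℝ) ^ 2 / (p : ℝ) ^ 2 := by positivity
      by_cases hsmall : p ≤ 2 * R₀ * N
      · have h := card_line_le N (p ^ 2) u' w' L ρ (pow_pos hpp.pos 2)
          (by push_cast; exact hpL.pow_left)
        have h' : (K ρ).card ≤ (N / p ^ 2 + 1) * N := by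
          refine le_trans (Finset.card_le_card fun x hx => ?_) h
          obtain ⟨hxB, hd⟩ := Finset.mem_filter.mp hx
          refine Finset.mem_filter.mpr ⟨(Finset.mem_filter.mp hxB).1, ?_⟩
          push_cast
          exact hd
        refine (Nat.cast_le.mpr h').trans ?_
        have hq' : ((N / p ^ 2 : ℕ) : ℝ) ≤ (N : ℝ) / ((p ^ 2 : ℕ) : ℝ) := Nat.cast_div_le
        push_cast at hq' ⊢
        rw [ht, if_pos hsmall,
          show (N : ℝ) ^ 2 / (p : ℝ) ^ 2 = (N : ℝ) / (p : ℝ) ^ 2 * N by ring]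
        nlinarith [Nat.cast_nonneg (α := ℝ) N]
      · have hp' : (2 * R₀ * N : ℕ) < p := not_le.mp hsmall
        have h1 : (K ρ).card ≤ 1 := by
          refine card_le_one_of_line (K ρ) rr ss (R := (R₀ : ℤ) * N) (m := (p : ℤ) ^ 2) (ρ := ρ)
            ?_ ?_ ?_ ?_ ?_ ?_ ?_
          · intro x _ y _ h1 h2
            simp only [hrr, hss, add_right_inj, mul_eq_mul_left_iff, Nat.cast_inj,
              Int.natCast_eq_zero, hL.ne', or_false] at h1 h2
            exact Prod.ext h1 h2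
          · exact fun x hx => (Finset.mem_filter.mp (Finset.mem_filter.mp hx).1).2.1
          · exact fun x hx => (hbd x (Finset.mem_filter.mp (Finset.mem_filter.mp hx).1).1).2.2
          · exact fun x hx => (hbd x (Finset.mem_filter.mp (Finset.mem_filter.mp hx).1).1).1
          · exact fun x hx => (hbd x (Finset.mem_filter.mp (Finset.mem_filter.mp hx).1).1).2.1
          · have : (2 * R₀ * N : ℤ) < p := by exact_mod_cast hp'
            have h0 : (0 : ℤ) ≤ (R₀ : ℤ) * N := by positivity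
            nlinarith
          · exact fun x hx => (Finset.mem_filter.mp hx).2
        have : ((K ρ).card : ℝ) ≤ 1 := by exact_mod_cast h1
        rw [ht, if_neg hsmall]
        linarith
    have hB₂card : (B₂.card : ℝ) ≤ 4 * t := by
      refine (Nat.cast_le.mpr ((Finset.card_le_card hcov).trans Finset.card_biUnion_le)).trans ?_
      push_cast
      refine (Finset.sum_le_sum hKt).trans ?_
      rw [Finset.sum_const, nsmul_eq_mul]
      have h4 : (Rs.card : ℝ) ≤ 4 := by exact_mod_cast hRs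
      have : 0 ≤ t := by rw [ht]; positivity
      gcongr
    refine le_trans (add_le_add hboth hB₂card) ?_
    rw [ht]
    split_ifs <;> ring_nf <;> linarith
  -- the bad sets do not cover the box
  have hlt : (T.biUnion bad).card < box.card := by
    have h1 : ((T.biUnion bad).card : ℝ) ≤ ∑ p ∈ T, ((bad p).card : ℝ) := by
      exact_mod_cast Finset.card_biUnion_le
    have h2 := h1.trans (Finset.sum_le_sum hcard)
    rw [Finset.sum_add_distrib, Finset.sum_add_distrib, ← Finset.sum_filter, Finset.sum_const,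
      Finset.sum_const, nsmul_eq_mul, nsmul_eq_mul] at h2
    have hs : ∑ p ∈ T, 6 * (N : ℝ) ^ 2 / (p : ℝ) ^ 2 ≤ 6 * (N : ℝ) ^ 2 * (1 / 8) := by
      refine le_trans (le_of_eq ?_) (mul_le_mul_of_nonneg_left
        (sum_inv_sq_le T (fun p hp => (hmem p hp).2.2.1) fun p hp => (hmem p hp).2.2.2.1)
        (by positivity))
      rw [Finset.mul_sum]
      exact Finset.sum_congr rfl fun p _ => by ring
    have hR2 : N ≤ 2 * R₀ * N := Nat.le_mul_of_pos_left N (by omega)
    have hpi : ∀ M, N ≤ M → ∀ U : Finset ℕ, (∀ p ∈ U, p.Prime ∧ p ≤ M) →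
        (U.card : ℝ) ≤ δ * M := by
      intro M hM U hU
      refine le_trans (Nat.cast_le.mpr (Finset.card_le_card fun p hp => ?_)) (hn₀ M (by omega))
      exact Finset.mem_filter.mpr ⟨Finset.mem_range.mpr (by have := (hU p hp).2; omega), (hU p hp).1⟩
    have hT1 : (T.card : ℝ) ≤ δ * (C * N ^ 2 : ℕ) := hpi _ hNN T fun p hp =>
      ⟨(hmem p hp).1, by have := Finset.mem_range.mp (Finset.mem_filter.mp hp).1; omega⟩
    have hT2 : ((T.filter fun p => p ≤ 2 * R₀ * N).card : ℝ) ≤ δ * (2 * R₀ * N : ℕ) :=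
      hpi _ hR2 _ fun p hp => ⟨(hmem p (Finset.mem_filter.mp hp).1).1, (Finset.mem_filter.mp hp).2⟩
    push_cast at hT1 hT2
    have hNpos : (0 : ℝ) < (N : ℝ) ^ 2 := by
      have : (1 : ℝ) ≤ N := by exact_mod_cast hN1
      positivity
    have hδ1 : δ * (6 * (C : ℝ) + 8 * R₀) ≤ 1 / 8 := by
      rw [hδ, div_mul_eq_mul_div, div_le_iff₀ (by positivity)]
      nlinarith [Nat.cast_nonneg (α := ℝ) C, Nat.cast_nonneg (α := ℝ) R₀]
    have hgoal : ((T.biUnion bad).card : ℝ) < (N : ℝ) ^ 2 := by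
      have hT2' := mul_le_mul_of_nonneg_right hT2 (show (0 : ℝ) ≤ 4 * N by positivity)
      have hδ2 := mul_le_mul_of_nonneg_right hδ1 hNpos.le
      linarith
    rw [hbox, Finset.card_product, Finset.card_range]
    exact_mod_cast (by rwa [pow_two] at hgoal :
      ((T.biUnion bad).card : ℝ) < (N : ℝ) * N)
  obtain ⟨x, hx, hxbad⟩ := Finset.exists_mem_notMem_of_card_lt_card hlt
  obtain ⟨hr, hs, hspos⟩ := hbd x hx
  have hnot : ∀ p ∈ T, x ∉ bad p := fun p hp h => hxbad (Finset.mem_biUnion.mpr ⟨p, hp, h⟩)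
  have hRNN : R₀ * N ≤ C * N ^ 2 := by
    rw [hC, pow_two, pow_two]
    calc R₀ * N = 1 * (R₀ * 1) * (N * 1) := by ring
      _ ≤ C₀ * (R₀ * R₀) * (N * N) := by gcongr <;> omega
  have hcop : IsCoprime (rr x) (ss x) := by
    rw [Int.isCoprime_iff_gcd_eq_one]
    by_contra hg
    obtain ⟨p, hpp, hpd⟩ := Nat.exists_prime_and_dvd hg
    have hpr : (p : ℤ) ∣ rr x := (Int.natCast_dvd_natCast.mpr hpd).trans (Int.gcd_dvd_left _ _)
    have hps : (p : ℤ) ∣ ss x := (Int.natCast_dvd_natCast.mpr hpd).trans (Int.gcd_dvd_right _ _)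
    by_cases hpS : p ∈ S
    · have hpL := Int.natCast_dvd_natCast.mpr (hSL p hpp hpS)
      refine hprim p hpp (hSL p hpp hpS) ⟨?_, ?_⟩
      · rw [show u = rr x - (L : ℤ) * (A * N + x.1) by simp only [hrr, hu']; ring]
        exact dvd_sub hpr (Dvd.dvd.mul_right hpL _)
      · rw [show w = ss x - (L : ℤ) * (B * N + x.2) by simp only [hss, hw']; ring]
        exact dvd_sub hps (Dvd.dvd.mul_right hpL _)
    · have hle : p ≤ R₀ * N := by
        have := (Int.le_of_dvd (abs_pos.mpr hspos.ne') ((dvd_abs _ _).mpr hps)).trans hs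
        exact_mod_cast this
      refine hnot p (Finset.mem_filter.mpr ⟨Finset.mem_range.mpr (by omega), hpp, hpS⟩) ?_
      exact Finset.mem_union_left _ (Finset.mem_filter.mpr ⟨hx, hpr, hps⟩)
  have hsmall : ∀ p : ℕ, p.Prime → p ∉ S → p ≤ C * N ^ 2 →
      ¬ (p : ℤ) ^ 2 ∣ qForm a b c d e (rr x) (ss x) := by
    intro p hpp hpS hle hd
    exact hnot p (Finset.mem_filter.mpr ⟨Finset.mem_range.mpr (by omega), hpp, hpS⟩)
      (Finset.mem_union_right _ (Finset.mem_filter.mpr ⟨hx, hcop, hd⟩))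
  have hne : qForm a b c d e (rr x) (ss x) ≠ 0 := fun h =>
    hsmall q hq hqS' (by omega) (h ▸ dvd_zero _)
  have hall : ∀ p : ℕ, p.Prime → p ∉ S → ¬ (p : ℤ) ^ 2 ∣ qForm a b c d e (rr x) (ss x) := by
    intro p hpp hpS hd
    refine hsmall p hpp hpS ?_ hd
    have hle := Int.le_of_dvd (abs_pos.mpr hne) ((dvd_abs _ _).mpr hd)
    have hF : |qForm a b c d e (rr x) (ss x)| ≤ (C₀ : ℤ) * ((R₀ : ℤ) * N) ^ 4 := by
      set r := rr x
      set s := ss x
      set R : ℤ := (R₀ : ℤ) * N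
      have hR : 0 ≤ R := by positivity
      have key : ∀ (k : ℤ) (i j : ℕ), i + j = 4 → |k * r ^ i * s ^ j| ≤ |k| * R ^ 4 := by
        intro k i j hij
        rw [abs_mul, abs_mul, abs_pow, abs_pow, mul_assoc, ← hij, pow_add]
        gcongr
      have k4 := abs_le.mp (key a 4 0 rfl)
      have k3 := abs_le.mp (key b 3 1 rfl)
      have k2 := abs_le.mp (key c 2 2 rfl)
      have k1 := abs_le.mp (key d 1 3 rfl)
      have k0 := abs_le.mp (key e 0 4 rfl)
      have hR4 : 0 ≤ R ^ 4 := by positivity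
      simp only [pow_zero, pow_one, mul_one] at k4 k3 k1 k0
      have hC' : (C₀ : ℤ) = |a| + |b| + |c| + |d| + |e| + 1 := by rw [hC₀]; simp
      rw [hC', abs_le]
      simp only [qForm]
      constructor <;> linarith
    have hsq : (p : ℤ) ^ 2 ≤ ((C * N ^ 2 : ℕ) : ℤ) ^ 2 := by
      refine hle.trans (hF.trans ?_)
      have hC0 : (1 : ℤ) ≤ C₀ := by exact_mod_cast (show 1 ≤ C₀ by omega)
      rw [hC]
      push_cast
      nlinarith [mul_nonneg (mul_nonneg (by omega : (0 : ℤ) ≤ C₀) (by omega : (0 : ℤ) ≤ C₀ - 1))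
        (show (0 : ℤ) ≤ ((R₀ : ℤ) * N) ^ 4 by positivity)]
    exact_mod_cast (pow_le_pow_iff_left₀ (by positivity) (by positivity) two_ne_zero).mp hsq
  obtain ⟨h1, h2⟩ := Finset.mem_product.mp hx
  refine ⟨x.1, Finset.mem_range.mp h1, x.2, Finset.mem_range.mp h2, ?_⟩
  have er : u + (L : ℤ) * (A * N + x.1) = rr x := by simp only [hrr, hu']; ring
  have es : w + (L : ℤ) * (B * N + x.2) = ss x := by simp only [hss, hw']; ring
  rw [er, es]
  exact ⟨hcop, hne, hall⟩

end Fermat.Agent.Squarefree
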